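/-
Lib/EtaUnit (architect helper213).  The algebra `WHA N` of weakly holomorphic functions on `ℍ`
all of whose `SL(2,ℤ)`-translates have a `t`-expansion (`t = exp (2 π i τ / N)`) with coefficients in
`ℚ̄`.  It contains `Fermat.Agent.S24.AL N`, carries the same `SL(2,ℤ)`-action, and its invariants are
the polynomials in `j`.
-/
import Fermat.Agent.S24.B.Invariants

set_option autoImplicit false

namespace Fermat.Agent.Lib.EtaUnit

open UpperHalfPlane ModularCurve Fermat.Agent.S24 Fermat.Agent.S24.B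
open scoped MatrixGroups Real Manifold

/-- `f` is holomorphic on `ℍ` and every translate `f ∘ γ` has a `t`-expansion over `ℚ̄`. -/
structure IsWHA (N : ℕ) (f : ℍ → ℂ) : Prop where
  mdiff : MDiff f
  exp : ∀ γ : SL(2, ℤ), ∃ s : LaurentSeries Kbar, HasTExp N (fun τ => f (γ • τ)) s

variable {N : ℕ} [NeZero N]

theorem IsWHA.comp_smul {f : ℍ → ℂ} (hf : IsWHA N f) (g : SL(2, ℤ)) :
    IsWHA N (fun τ => f (g • τ)) := by
  refine ⟨?_, fun γ => ?_⟩
  · exact hf.mdiff.comp (UpperHalfPlane.mdifferentiable_smul (g := (g : GL (Fin 2) ℝ)) (by simp))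
  · obtain ⟨s, hs⟩ := hf.exp (g * γ)
    exact ⟨s, by simpa only [mul_smul] using hs⟩

variable (N) in
/-- The `ℚ̄`-algebra of weakly holomorphic functions of level `N` with algebraic expansions. -/
def WHA : Subalgebra Kbar (ℍ → ℂ) where
  carrier := {f | IsWHA N f}
  mul_mem' := by
    intro f g hf hg
    refine ⟨hf.mdiff.mul hg.mdiff, fun γ => ?_⟩
    obtain ⟨s, hs⟩ := hf.exp γ
    obtain ⟨s', hs'⟩ := hg.exp γ
    exact ⟨s * s', hs.mul hs'⟩
  add_mem' := by
    intro f g hf hg
    refine ⟨hf.mdiff.add hg.mdiff, fun γ => ?_⟩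
    obtain ⟨s, hs⟩ := hf.exp γ
    obtain ⟨s', hs'⟩ := hg.exp γ
    exact ⟨s + s', hs.add hs'⟩
  algebraMap_mem' := by
    intro c
    exact ⟨mdifferentiable_const, fun _ => ⟨HahnSeries.C c, HasTExp.const (N := N) c⟩⟩

theorem mem_WHA {f : ℍ → ℂ} : f ∈ WHA N ↔ IsWHA N f := Iff.rfl

/-- `SL(2,ℤ)` acts on `WHA N` by `(γ • f) τ = f (γ⁻¹ • τ)` (same convention as `S24.AL`). -/
noncomputable instance instActionWHA : MulSemiringAction SL(2, ℤ) (WHA N) where
  smul γ f := ⟨fun τ => f.1 (γ⁻¹ • τ), f.2.comp_smul γ⁻¹⟩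
  one_smul f := by
    apply Subtype.ext
    funext τ
    show f.1 ((1 : SL(2, ℤ))⁻¹ • τ) = f.1 τ
    rw [inv_one, one_smul]
  mul_smul γ γ' f := by
    apply Subtype.ext
    funext τ
    show f.1 ((γ * γ')⁻¹ • τ) = f.1 (γ'⁻¹ • γ⁻¹ • τ)
    rw [mul_inv_rev, mul_smul]
  smul_zero γ := rfl
  smul_add γ f g := rfl
  smul_one γ := rfl
  smul_mul γ f g := rfl

theorem smul_WHA_apply (γ : SL(2, ℤ)) (f : WHA N) (τ : ℍ) : (γ • f).1 τ = f.1 (γ⁻¹ • τ) := rfl

theorem smul_WHA_algebraMap (γ : SL(2, ℤ)) (c : Kbar) :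
    γ • algebraMap Kbar (WHA N) c = algebraMap Kbar (WHA N) c := rfl

theorem exists_hasTExp_WHA (f : WHA N) : ∃ s : LaurentSeries Kbar, HasTExp N f.1 s := by
  obtain ⟨s, hs⟩ := f.2.exp 1
  exact ⟨s, by simpa only [one_smul] using hs⟩

/-- The `t`-expansion of an element of `WHA N`. -/
noncomputable def texFun (f : WHA N) : LaurentSeries Kbar := (exists_hasTExp_WHA f).choose

theorem hasTExp_texFun (f : WHA N) : HasTExp N f.1 (texFun f) := (exists_hasTExp_WHA f).choose_spec

theorem texFun_eq {f : WHA N} {s : LaurentSeries Kbar} (h : HasTExp N f.1 s) : texFun f = s :=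
  (hasTExp_texFun f).unique h

variable (N) in
/-- The `t`-expansion homomorphism on `WHA N`. -/
noncomputable def tex : WHA N →ₐ[Kbar] LaurentSeries Kbar where
  toFun := texFun
  map_one' := texFun_eq (by
    have h := HasTExp.const (N := N) 1
    rw [map_one, map_one] at h
    exact h)
  map_mul' f g := texFun_eq ((hasTExp_texFun f).mul (hasTExp_texFun g))
  map_zero' := texFun_eq (by
    have h := HasTExp.const (N := N) 0
    rw [map_zero, map_zero] at h
    exact h)
  map_add' f g := texFun_eq ((hasTExp_texFun f).add (hasTExp_texFun g))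
  commutes' c := texFun_eq (by
    rw [algebraMap_laurentSeries_eq_single]
    exact HasTExp.const (N := N) c)

theorem hasTExp_tex (f : WHA N) : HasTExp N f.1 (tex N f) := hasTExp_texFun f

theorem tex_eq {f : WHA N} {s : LaurentSeries Kbar} (h : HasTExp N f.1 s) : tex N f = s :=
  texFun_eq h

theorem tex_injective : Function.Injective (tex N) := by
  rw [injective_iff_map_eq_zero]
  intro f hf
  have h := hasTExp_tex f
  rw [hf] at h
  exact Subtype.ext h.eq_zero

instance instIsDomainWHA : IsDomain (WHA N) :=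
  tex_injective.isDomain (tex N).toRingHom

/-- `AL N ⊆ WHA N`. -/
theorem AL_le_WHA : AL N ≤ WHA N := by
  intro f hf
  refine ⟨Stubs.mdiff_of_mem_AL hf, fun γ => ?_⟩
  exact exists_hasTExp_of_mem (comp_smul_mem_AL hf γ)

variable (N) in
/-- The inclusion `AL N → WHA N`. -/
noncomputable def inclAL : AL N →ₐ[Kbar] WHA N := Subalgebra.inclusion AL_le_WHA

theorem inclAL_apply (f : AL N) (τ : ℍ) : (inclAL N f).1 τ = f.1 τ := rfl

theorem smul_inclAL (γ : SL(2, ℤ)) (f : AL N) : γ • inclAL N f = inclAL N (γ • f) := rfl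

theorem tex_inclAL (f : AL N) : tex N (inclAL N f) = texp N f :=
  tex_eq (hasTExp_texp f)

/-- The invariants of `WHA N` are the polynomials in `j`. -/
theorem exists_poly_of_invariant_WHA (f : WHA N) (hf : ∀ γ : SL(2, ℤ), γ • f = f) :
    ∃ p : Polynomial Kbar, f = Polynomial.aeval (inclAL N (jd N 1 (one_dvd N))) p := by
  obtain ⟨p, hp⟩ := exists_poly_of_invariant (N := N) f.1 f.2.mdiff
    (fun γ τ => by
      have h := congrArg (fun g : WHA N => g.1 τ) (hf γ⁻¹)
      simpa [smul_WHA_apply] using h)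
    (tex N f) (hasTExp_tex f)
  refine ⟨p, Subtype.ext (funext fun τ => ?_)⟩
  rw [hp τ, Polynomial.aeval_algHom_apply, inclAL_apply, aeval_jd_one_apply]

end Fermat.Agent.Lib.EtaUnit
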