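/-
Lib/EtaUnit (architect helper213).  The family of conjugates `γ • f`, `γ ∈ SL(2,ℤ) / Γ₀(N)`, of an
element of `WHA N` fixed by `Γ₀(N)`.
-/
import Fermat.Agent.Lib.EtaUnit.WHA

set_option autoImplicit false

namespace Fermat.Agent.Lib.EtaUnit

open UpperHalfPlane ModularCurve CongruenceSubgroup Fermat.Agent.S24 Fermat.Agent.S24.B
open scoped MatrixGroups Real Manifold

variable {N : ℕ} [NeZero N]

variable (N) in
/-- The coset space `SL(2,ℤ) / Γ₀(N)`. -/
abbrev Q : Type := SL(2, ℤ) ⧸ Gamma0 N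

instance instFiniteQ : Finite (Q N) := Subgroup.finite_quotient_of_finiteIndex

noncomputable instance instFintypeQ : Fintype (Q N) := Fintype.ofFinite _

/-- The conjugate `γ • f` as a function of the coset `γ Γ₀(N)`. -/
noncomputable def orb (f : WHA N) (hf : ∀ γ ∈ Gamma0 N, γ • f = f) : Q N → WHA N :=
  Quotient.lift (fun γ : SL(2, ℤ) => γ • f) (by
    intro a b hab
    have h : a⁻¹ * b ∈ Gamma0 N := QuotientGroup.leftRel_apply.mp hab
    show a • f = b • f
    have h2 : b = a * (a⁻¹ * b) := by group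
    rw [h2, mul_smul, hf _ h])

theorem orb_mk (f : WHA N) (hf : ∀ γ ∈ Gamma0 N, γ • f = f) (γ : SL(2, ℤ)) :
    orb f hf (QuotientGroup.mk γ) = γ • f := rfl

theorem smul_orb (f : WHA N) (hf : ∀ γ ∈ Gamma0 N, γ • f = f) (g : SL(2, ℤ)) (i : Q N) :
    g • orb f hf i = orb f hf (g • i) := by
  induction i using QuotientGroup.induction_on with
  | H γ => rw [orb_mk, ← mul_smul]; rfl

/-- An equivariant family has an invariant sum. -/
theorem smul_sum_of_equivariant (F : Q N → WHA N) (hF : ∀ (g : SL(2, ℤ)) (i : Q N), g • F i = F (g • i))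
    (g : SL(2, ℤ)) : g • ∑ i, F i = ∑ i, F i := by
  rw [Finset.smul_sum]
  simp only [hF]
  exact Equiv.sum_comp (MulAction.toPerm g) F

/-- An equivariant family has an invariant characteristic polynomial. -/
theorem smul_prod_X_sub_C_of_equivariant (F : Q N → WHA N)
    (hF : ∀ (g : SL(2, ℤ)) (i : Q N), g • F i = F (g • i)) (g : SL(2, ℤ)) :
    (∏ i, (Polynomial.X - Polynomial.C (F i))).map (MulSemiringAction.toRingHom SL(2, ℤ) (WHA N) g) =
      ∏ i, (Polynomial.X - Polynomial.C (F i)) := by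
  rw [Polynomial.map_prod]
  simp only [Polynomial.map_sub, Polynomial.map_X, Polynomial.map_C,
    MulSemiringAction.toRingHom_apply, hF]
  exact Equiv.prod_comp (MulAction.toPerm g) fun i => Polynomial.X - Polynomial.C (F i)

/-- `j_N = j(Nτ)` in `WHA N`. -/
noncomputable def jN : WHA N := inclAL N (jd N N dvd_rfl)

theorem smul_jN_of_mem (γ : SL(2, ℤ)) (hγ : γ ∈ Gamma0 N) : γ • (jN : WHA N) = jN := by
  rw [jN, smul_inclAL, smul_jd_of_mem_Gamma0 γ hγ]

/-- The conjugates of `j_N` are pairwise distinct. -/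
theorem orb_jN_injective : Function.Injective (orb (jN : WHA N) smul_jN_of_mem) := by
  intro i i' h
  induction i using QuotientGroup.induction_on with
  | H γ =>
  induction i' using QuotientGroup.induction_on with
  | H γ' =>
  rw [orb_mk, orb_mk] at h
  have h1 : (γ⁻¹ * γ') • (jN : WHA N) = jN := by rw [mul_smul, ← h, ← mul_smul, inv_mul_cancel, one_smul]
  have h2 : (γ⁻¹ * γ') • jd N N dvd_rfl = jd N N dvd_rfl := by
    apply Subtype.ext
    have := congrArg Subtype.val h1
    exact this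
  exact QuotientGroup.eq.mpr (mem_Gamma0_of_smul_jd _ h2)

end Fermat.Agent.Lib.EtaUnit
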