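/-
Lib/EtaUnit (architect helper213).  TASK EU-1.
Proved by helper4.

Lagrange interpolation with coefficients in a subfield.
PROOF.  `n = card ι`, `V i m = y i ^ m` (`m : Fin n`; after `Fintype.equivFin ι` this is
`Matrix.vandermonde`, `Matrix.det_vandermonde_ne_zero_iff`).  `Mk := Vᵀ V` has entries
`∑ i, y i ^ (m + m')` in `k`, `sk := Vᵀ f` has entries `∑ i, f i * y i ^ m` in `k`, `det Mk = (det V)² ≠ 0`.
Let `c := Mk⁻¹ sk` (a vector over `k`).  Then `Vᵀ (V c - f) = 0`, so `V c = f`, i.e.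
`f i = ∑ m, c m * y i ^ m`.
-/
import Mathlib

set_option autoImplicit false

namespace Fermat.Agent.Lib.EtaUnit

theorem exists_poly_of_power_sums {Ω : Type*} [Field Ω] (k : Subfield Ω) {ι : Type*} [Fintype ι]
    (y f : ι → Ω) (hy : Function.Injective y)
    (hP : ∀ m : ℕ, ∑ i, y i ^ m ∈ k) (hS : ∀ m : ℕ, ∑ i, f i * y i ^ m ∈ k) :
    ∃ c : Polynomial k, ∀ i, f i = Polynomial.aeval (y i) c := by
  classical
  set n := Fintype.card ι with hn
  let e : ι ≃ Fin n := Fintype.equivFin ι
  let y' : Fin n → Ω := y ∘ e.symm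
  let f' : Fin n → Ω := f ∘ e.symm
  let V : Matrix (Fin n) (Fin n) Ω := Matrix.vandermonde y'
  have hV : V.det ≠ 0 := Matrix.det_vandermonde_ne_zero_iff.2 (hy.comp e.symm.injective)
  let Mk : Matrix (Fin n) (Fin n) k :=
    Matrix.of fun m m' => ⟨∑ i, y i ^ ((m : ℕ) + (m' : ℕ)), hP _⟩
  let sk : Fin n → k := fun m => ⟨∑ i, f i * y i ^ (m : ℕ), hS _⟩
  have hMk : Mk.map k.subtype = V.transpose * V := by
    ext m m'
    have h1 : (Mk.map k.subtype) m m' = ∑ i, y i ^ ((m : ℕ) + (m' : ℕ)) := rfl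
    rw [h1, ← Equiv.sum_comp e.symm]
    simp only [Matrix.mul_apply, Matrix.transpose_apply,
      V, Matrix.vandermonde_apply, y', Function.comp]
    exact Finset.sum_congr rfl fun i _ => pow_add _ _ _
  have hsk : (fun m => (sk m : Ω)) = V.transpose.mulVec f' := by
    ext m
    have h1 : (sk m : Ω) = ∑ i, f i * y i ^ (m : ℕ) := rfl
    rw [h1, ← Equiv.sum_comp e.symm]
    simp only [Matrix.mulVec, dotProduct, Matrix.transpose_apply, V, Matrix.vandermonde_apply,
      y', f', Function.comp]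
    exact Finset.sum_congr rfl fun i _ => mul_comm _ _
  have hdet : Mk.det ≠ 0 := by
    intro h0
    have h1 : (Mk.map k.subtype).det = 0 := by
      rw [← RingHom.mapMatrix_apply, ← RingHom.map_det, h0, map_zero]
    rw [hMk, Matrix.det_mul, Matrix.det_transpose] at h1
    exact hV (mul_self_eq_zero.1 h1)
  let c : Fin n → k := Mk⁻¹.mulVec sk
  have hc : Mk.mulVec c = sk := by
    simp only [c]
    rw [Matrix.mulVec_mulVec, Matrix.mul_nonsing_inv _ (isUnit_iff_ne_zero.2 hdet),
      Matrix.one_mulVec]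
  let c' : Fin n → Ω := fun m => (c m : Ω)
  have hc' : (V.transpose * V).mulVec c' = V.transpose.mulVec f' := by
    rw [← hMk, ← hsk, ← hc]
    ext m
    exact (RingHom.map_mulVec k.subtype Mk c m).symm
  have hVc : V.mulVec c' = f' := by
    have h0 : V.transpose.mulVec (V.mulVec c' - f') = 0 := by
      rw [Matrix.mulVec_sub, Matrix.mulVec_mulVec, hc', sub_self]
    have := Matrix.eq_zero_of_mulVec_eq_zero (by rwa [Matrix.det_transpose]) h0
    exact sub_eq_zero.1 this
  refine ⟨∑ m : Fin n, Polynomial.C (c m) * Polynomial.X ^ (m : ℕ), fun i => ?_⟩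
  have h1 := congrFun hVc (e i)
  simp only [Matrix.mulVec, dotProduct, V, Matrix.vandermonde_apply, y', f', Function.comp,
    Equiv.symm_apply_apply, c'] at h1
  rw [← h1, map_sum]
  refine Finset.sum_congr rfl fun m _ => ?_
  rw [map_mul, Polynomial.aeval_C, map_pow, Polynomial.aeval_X, mul_comm]
  rfl

end Fermat.Agent.Lib.EtaUnit
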