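/-
Lib/EtaUnit (architect helper213).  Definitions: weight one forms without zeros, the functions
`x_m(τ) = G(τ) / G(m τ)`.
-/
import Fermat.Agent.Lib.EtaUnit.WHA

set_option autoImplicit false

namespace Fermat.Agent.Lib.EtaUnit

open UpperHalfPlane ModularCurve CongruenceSubgroup Fermat.Agent.S24 Fermat.Agent.S24.B
open scoped MatrixGroups Real Manifold

/-- An integral power series as a Laurent series over `ℚ̄`. -/
noncomputable def toL (P : PowerSeries ℤ) : LaurentSeries Kbar :=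
  HahnSeries.ofPowerSeries ℤ Kbar (P.map (Int.castRingHom Kbar))

/-- `G` is a holomorphic modular form of weight one on `Γ₀(a)` with quadratic character `χ`, without
zeros on `ℍ`, with `q`-expansion `Gs ∈ 1 + q ℤ[[q]]`, and with algebraic expansions at all cusps. -/
structure IsW1 (a : ℕ) (χ : ℤ → ℤ) (G : ℍ → ℂ) (Gs : PowerSeries ℤ) : Prop where
  mdiff : MDiff G
  ne_zero : ∀ τ, G τ ≠ 0
  aut : ∀ γ ∈ Gamma0 a, ∀ τ : ℍ, G (γ • τ) = (χ (γ 1 1) : ℂ) * denom γ τ * G τ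
  chi_one : χ 1 = 1
  chi_mul : ∀ m n : ℤ, χ (m * n) = χ m * χ n
  chi_per : ∀ m n : ℤ, (a : ℤ) ∣ m - n → χ m = χ n
  chi_sq : ∀ m : ℤ, IsCoprime m (a : ℤ) → χ m * χ m = 1
  const : PowerSeries.constantCoeff Gs = 1
  exp : HasTExp 1 G (toL Gs)
  cusp : ∀ γ : SL(2, ℤ), ∃ (M : ℕ) (_ : NeZero M) (s : LaurentSeries Kbar),
    HasTExp M (fun τ => G (γ • τ) / denom γ τ) s

/-- `x_m(τ) = G(τ) / G(m τ)`. -/
noncomputable def xfun (G : ℍ → ℂ) (m : ℕ) [NeZero m] (τ : ℍ) : ℂ := G τ / G (dilMat m • τ)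

/-- The formal `q`-expansion of `x_m`. -/
noncomputable def xser (Gs : PowerSeries ℤ) (m : ℕ) [NeZero m] : LaurentSeries Kbar :=
  toL Gs / qExpand Kbar m (toL Gs)

/-- `U_n = [[1, 0], [n, 1]]`. -/
def Umat (n : ℤ) : SL(2, ℤ) := ⟨!![1, 0; n, 1], by simp [Matrix.det_fin_two_of]⟩

theorem T_mem_Gamma0 (n : ℕ) : ModularGroup.T ∈ Gamma0 n := by
  simp [Gamma0_mem, ModularGroup.T]

theorem neg_one_mem_Gamma0 (n : ℕ) : (-1 : SL(2, ℤ)) ∈ Gamma0 n := by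
  simp [Gamma0_mem]

theorem Umat_mem_Gamma0 (n : ℕ) : Umat n ∈ Gamma0 n := by
  simp [Gamma0_mem, Umat]

end Fermat.Agent.Lib.EtaUnit
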