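/-
Lib/EtaUnit (architect helper213).  TASK EU-13 (proofs: helper185).

THE DELIVERABLE of the abstract half: the modular units `G(τ) / G(m τ)` as elements of `FN N`.
-/
import Fermat.Agent.Lib.EtaUnit.Unit.InWHA
import Fermat.Agent.Lib.EtaUnit.Mem.Exists
import Fermat.Agent.Lib.EtaUnit.Mem.Integral
import Fermat.Agent.Lib.EtaUnit.Mem.Cor

set_option autoImplicit false

namespace Fermat.Agent.Lib.EtaUnit

open UpperHalfPlane ModularCurve CongruenceSubgroup AlgebraicCurve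
open Fermat.Agent.S24 Fermat.Agent.S24.B
open scoped MatrixGroups Real Manifold

variable {a : ℕ} {χ : ℤ → ℤ} {G : ℍ → ℂ} {Gs : PowerSeries ℤ}

/-- `x_m` as an element of `WHA N`. -/
noncomputable def xW (h : IsW1 a χ G Gs) (m N : ℕ) [NeZero m] [NeZero N] (hm : Nat.Coprime m a)
    (hN : a * m ∣ N) : WHA N := ⟨xfun G m, isWHA_xfun h m N hm hN⟩

/-- `1 / x_m` as an element of `WHA N`. -/
noncomputable def xWinv (h : IsW1 a χ G Gs) (m N : ℕ) [NeZero m] [NeZero N] (hm : Nat.Coprime m a)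
    (hN : a * m ∣ N) : WHA N := ⟨fun τ => (xfun G m τ)⁻¹, isWHA_xfun_inv h m N hm hN⟩

theorem smul_xW_of_mem (h : IsW1 a χ G Gs) (m N : ℕ) [NeZero m] [NeZero N] (hm : Nat.Coprime m a)
    (hN : a * m ∣ N) (γ : SL(2, ℤ)) (hγ : γ ∈ Gamma0 N) : γ • xW h m N hm hN = xW h m N hm hN := by
  apply Subtype.ext
  funext τ
  show xfun G m (γ⁻¹ • τ) = xfun G m τ
  exact xfun_smul_of_mem h m N hm hN γ⁻¹ (inv_mem hγ) τ

theorem smul_xWinv_of_mem (h : IsW1 a χ G Gs) (m N : ℕ) [NeZero m] [NeZero N]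
    (hm : Nat.Coprime m a) (hN : a * m ∣ N) (γ : SL(2, ℤ)) (hγ : γ ∈ Gamma0 N) :
    γ • xWinv h m N hm hN = xWinv h m N hm hN := by
  apply Subtype.ext
  funext τ
  show (xfun G m (γ⁻¹ • τ))⁻¹ = (xfun G m τ)⁻¹
  rw [xfun_smul_of_mem h m N hm hN γ⁻¹ (inv_mem hγ) τ]

/-- The element of `FN N` given by `exists_FN_of_fixed` has the `q`-expansion `xser Gs m`. -/
theorem coe_eq_xser_of_tex_eq (h : IsW1 a χ G Gs) (m N : ℕ) [NeZero m] [NeZero N]
    (hm : Nat.Coprime m a) (hN : a * m ∣ N) (u : FN N)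
    (hu : texpL N (Psi N u) = tex N (xW h m N hm hN)) : (u : LaurentSeries Kbar) = xser Gs m := by
  have h1 := hasTExp_of_tex_eq (xW h m N hm hN) u hu
  have h2 : HasTExp N (xW h m N hm hN).1 (qExpand Kbar N (xser Gs m)) := hasTExp_xfun h m N
  exact qExpand_injective N (h1.unique h2)

/-- PROOF.  `exists_FN_of_fixed` for `⟨xfun G m, isWHA_xfun ..⟩` gives `u`; `hasTExp_of_tex_eq`,
`hasTExp_xfun`, `HasTExp.unique`, `qExpand_injective` give `u.1 = xser Gs m`. -/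
theorem xser_mem (h : IsW1 a χ G Gs) (m N : ℕ) [NeZero m] [NeZero N] (hm : Nat.Coprime m a)
    (hN : a * m ∣ N) : xser Gs m ∈ modularFunctionFieldBar N := by
  obtain ⟨u, hu⟩ := exists_FN_of_fixed (xW h m N hm hN) (smul_xW_of_mem h m N hm hN)
  have h1 := hu 1
  rw [one_smul, one_smul] at h1
  rw [← coe_eq_xser_of_tex_eq h m N hm hN u h1]
  exact u.2

/-- The modular unit `G(τ) / G(m τ)` in the function field of `X₀(N)`. -/
noncomputable def unitF (h : IsW1 a χ G Gs) (m N : ℕ) [NeZero m] [NeZero N]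
    (hm : Nat.Coprime m a) (hN : a * m ∣ N) : FN N := ⟨xser Gs m, xser_mem h m N hm hN⟩

/-- The defining property of `unitF`: all its conjugates have the expansions of those of `x_m`. -/
theorem texpL_smul_Psi_unitF (h : IsW1 a χ G Gs) (m N : ℕ) [NeZero m] [NeZero N]
    (hm : Nat.Coprime m a) (hN : a * m ∣ N) (γ : SL(2, ℤ)) :
    texpL N (γ • Psi N (unitF h m N hm hN)) = tex N (γ • xW h m N hm hN) := by
  obtain ⟨u, hu⟩ := exists_FN_of_fixed (xW h m N hm hN) (smul_xW_of_mem h m N hm hN)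
  have h1 := hu 1
  rw [one_smul, one_smul] at h1
  have h2 : u = unitF h m N hm hN := Subtype.ext (coe_eq_xser_of_tex_eq h m N hm hN u h1)
  rw [← h2]
  exact hu γ

theorem texpL_Psi_unitF (h : IsW1 a χ G Gs) (m N : ℕ) [NeZero m] [NeZero N]
    (hm : Nat.Coprime m a) (hN : a * m ∣ N) :
    texpL N (Psi N (unitF h m N hm hN)) = tex N (xW h m N hm hN) := by
  have h1 := texpL_smul_Psi_unitF h m N hm hN 1
  rwa [one_smul, one_smul] at h1

theorem unitF_ne_zero (h : IsW1 a χ G Gs) (m N : ℕ) [NeZero m] [NeZero N] (hm : Nat.Coprime m a)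
    (hN : a * m ∣ N) : unitF h m N hm hN ≠ 0 := by
  intro h0
  have h1 := texpL_Psi_unitF h m N hm hN
  rw [h0, map_zero, map_zero] at h1
  have h2 : xW h m N hm hN = 0 := tex_injective (by rw [← h1, map_zero])
  have h3 : xfun G m UpperHalfPlane.I = 0 := congrFun (congrArg Subtype.val h2) UpperHalfPlane.I
  exact xfun_ne_zero h m _ h3

/-- All conjugates of the unit are given by the function `x_m`. -/
theorem hasTExp_smul_unitF (h : IsW1 a χ G Gs) (m N : ℕ) [NeZero m] [NeZero N]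
    (hm : Nat.Coprime m a) (hN : a * m ∣ N) (γ : SL(2, ℤ)) :
    HasTExp N (fun τ => xfun G m (γ⁻¹ • τ)) (texpL N (γ • Psi N (unitF h m N hm hN))) := by
  rw [texpL_smul_Psi_unitF h m N hm hN γ]
  exact hasTExp_tex (γ • xW h m N hm hN)

theorem isIntegral_unitF (h : IsW1 a χ G Gs) (m N : ℕ) [NeZero m] [NeZero N]
    (hm : Nat.Coprime m a) (hN : a * m ∣ N) :
    IsIntegral (Algebra.adjoin Kbar {jF N}) (unitF h m N hm hN) :=
  isIntegral_of_tex_eq (xW h m N hm hN) (smul_xW_of_mem h m N hm hN) _ (texpL_Psi_unitF h m N hm hN)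

theorem xW_mul_xWinv (h : IsW1 a χ G Gs) (m N : ℕ) [NeZero m] [NeZero N]
    (hm : Nat.Coprime m a) (hN : a * m ∣ N) : xW h m N hm hN * xWinv h m N hm hN = 1 := by
  apply Subtype.ext
  funext τ
  show xfun G m τ * (xfun G m τ)⁻¹ = 1
  exact mul_inv_cancel₀ (xfun_ne_zero h m τ)

theorem isIntegral_unitF_inv (h : IsW1 a χ G Gs) (m N : ℕ) [NeZero m] [NeZero N]
    (hm : Nat.Coprime m a) (hN : a * m ∣ N) :
    IsIntegral (Algebra.adjoin Kbar {jF N}) (unitF h m N hm hN)⁻¹ := by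
  refine isIntegral_of_tex_eq (xWinv h m N hm hN) (smul_xWinv_of_mem h m N hm hN) _ ?_
  have h1 : tex N (xW h m N hm hN) * tex N (xWinv h m N hm hN) = 1 := by
    rw [← map_mul, xW_mul_xWinv, map_one]
  rw [map_inv₀, map_inv₀, texpL_Psi_unitF h m N hm hN]
  exact inv_eq_of_mul_eq_one_right h1

/-- No zeros or poles off the cusps. -/
theorem ord_unitF (h : IsW1 a χ G Gs) (m N : ℕ) [NeZero m] [NeZero N] (hm : Nat.Coprime m a)
    (hN : a * m ∣ N) (v : Place Kbar (FN N)) (hv : 0 ≤ v.ord (jF N)) :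
    v.ord (unitF h m N hm hN) = 0 := by
  have h1 := ord_nonneg_of_isIntegral _ (isIntegral_unitF h m N hm hN) v hv
  have h2 := ord_nonneg_of_isIntegral _ (isIntegral_unitF_inv h m N hm hN) v hv
  rw [v.ord_inv] at h2
  omega

/-- The expansions of the conjugates under `Γ₀(a)`:
`x_m(γ τ) = χ(D) D G(τ) / G((A τ + B) / D)`. -/
theorem texpL_smul_unitF (h : IsW1 a χ G Gs) (m N : ℕ) [NeZero m] [NeZero N]
    (hm : Nat.Coprime m a) (hN : a * m ∣ N) (γ : SL(2, ℤ)) (hγ : γ ∈ Gamma0 a) (A B D c' : ℤ)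
    (hA : 0 < A) (hD : 0 < D) (hAD : A * D = m) (hc : γ 1 0 = c' * A) (hB : D ∣ γ 1 1 - c' * B)
    (e : ℕ) [NeZero e] (he : (e : ℤ) * D = N * A) (ξ : Kbarˣ)
    (hξ : iota (ξ : Kbar) = Complex.exp (2 * π * Complex.I * B / D)) :
    texpL N (γ⁻¹ • Psi N (unitF h m N hm hN)) =
      HahnSeries.C (((χ D * D : ℤ) : Kbar)) *
        (qExpand Kbar N (toL Gs) / qExpand Kbar e (twist ξ (toL Gs))) := by
  have h1 := hasTExp_smul_unitF h m N hm hN γ⁻¹
  rw [inv_inv] at h1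
  exact h1.unique (hasTExp_xfun_smul h m N hm γ hγ A B D c' hA hD hAD hc hB e he ξ hξ)

end Fermat.Agent.Lib.EtaUnit
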