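/-
Lib/EtaUnit (architect helper213).  TASK EU-20.
Proved by helper29.
-/
import Fermat.Agent.Lib.EtaUnit.W1

set_option autoImplicit false

namespace Fermat.Agent.Lib.EtaUnit

open CongruenceSubgroup
open scoped MatrixGroups

theorem exists_balanced_rem (x m : ℤ) (hm : m ≠ 0) : ∃ k : ℤ, 2 * |x + k * m| ≤ |m| := by
  have h1 := Int.emod_nonneg x hm
  have h2 := Int.emod_lt_abs x hm
  have h3 := Int.emod_add_mul_ediv x m
  by_cases h : 2 * (x % m) ≤ |m|
  · refine ⟨-(x / m), ?_⟩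
    have h4 : x + -(x / m) * m = x % m := by linarith
    rw [h4, abs_of_nonneg h1]
    exact h
  · rcases lt_or_gt_of_ne hm with hneg | hpos
    · refine ⟨-(x / m) + 1, ?_⟩
      have h4 : x + (-(x / m) + 1) * m = x % m + m := by linarith
      rw [abs_of_neg hneg] at h h2 ⊢
      rw [h4, abs_of_nonpos (by linarith)]
      linarith
    · refine ⟨-(x / m) - 1, ?_⟩
      have h4 : x + (-(x / m) - 1) * m = x % m - m := by linarith
      rw [abs_of_pos hpos] at h h2 ⊢
      rw [h4, abs_of_nonpos (by linarith)]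
      linarith

theorem exists_descent (n : ℕ) (h1 : 1 ≤ n) (h4 : n ≤ 4) (c d : ℤ) (hc : c ≠ 0) (hn : (n : ℤ) ∣ c)
    (hcd : IsCoprime c d) : ∃ k l : ℤ, |c + l * n * (d + k * c)| < |c| := by
  obtain ⟨k, hk⟩ := exists_balanced_rem d c hc
  have hcpos : 0 < |c| := abs_pos.mpr hc
  have hcop : IsCoprime c (d + k * c) := hcd.add_mul_right_right k
  by_cases hd' : d + k * c = 0
  · -- then `c` is a unit
    rw [hd'] at hcop
    have hu : IsUnit c := isCoprime_zero_right.mp hcop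
    have hn1 : IsUnit (n : ℤ) := isUnit_of_dvd_unit hn hu
    have hn1' : n = 1 := by
      have := Int.isUnit_iff_natAbs_eq.mp hn1
      simpa using this
    refine ⟨k + 1, -1, ?_⟩
    have h5 : c + -1 * (n : ℤ) * (d + (k + 1) * c) = 0 := by
      rw [hn1']
      push_cast
      linear_combination (-1 : ℤ) * hd'
    rw [h5, abs_zero]
    exact hcpos
  · have hn0 : (n : ℤ) ≠ 0 := by
      have : (1 : ℤ) ≤ n := by exact_mod_cast h1
      omega
    obtain ⟨l, hl⟩ := exists_balanced_rem c ((n : ℤ) * (d + k * c)) (mul_ne_zero hn0 hd')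
    refine ⟨k, l, ?_⟩
    have e1 : c + l * (n : ℤ) * (d + k * c) = c + l * ((n : ℤ) * (d + k * c)) := by ring
    rw [e1]
    set d' := d + k * c with hd'def
    set c' := c + l * ((n : ℤ) * d') with hc'def
    rw [abs_mul, Nat.abs_cast] at hl
    have hnle : (n : ℤ) ≤ 4 := by exact_mod_cast h4
    have hn1 : (1 : ℤ) ≤ n := by exact_mod_cast h1
    have hd'pos : 0 < |d'| := abs_pos.mpr hd'
    -- `4 |c'| ≤ 2 n |d'| ≤ n |c| ≤ 4 |c|`
    by_contra hcon
    rw [not_lt] at hcon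
    have hA : 2 * ((n : ℤ) * |d'|) ≤ (n : ℤ) * |c| := by nlinarith
    have hB : (n : ℤ) * |c| ≤ 4 * |c| := by nlinarith
    have hn4 : (n : ℤ) = 4 := by
      by_contra hne
      have : (n : ℤ) ≤ 3 := by omega
      nlinarith
    have hcd2 : |c| = 2 * |d'| := by
      rw [hn4] at hA hl
      linarith
    -- `d' ∣ c`
    have hdvd : d' ∣ c := by
      rw [← abs_dvd_abs, hcd2]
      exact dvd_mul_left _ _
    have hu : IsUnit d' := hcop.symm.isUnit_of_dvd' (dvd_refl _) hdvd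
    have hd1 : |d'| = 1 := by
      rcases Int.isUnit_iff.mp hu with h | h <;> rw [h] <;> simp
    rw [hd1] at hcd2
    rw [hn4] at hn
    have : (4 : ℤ) ∣ |c| := (dvd_abs _ _).mpr hn
    rw [hcd2] at this
    omega

theorem Umat_add (a b : ℤ) : Umat (a + b) = Umat a * Umat b := by
  apply Subtype.ext
  rw [Matrix.SpecialLinearGroup.coe_mul]
  show !![1, 0; a + b, 1] = !![1, 0; a, 1] * !![1, 0; b, 1]
  rw [Matrix.mul_fin_two]
  simp

theorem Umat_zero : Umat 0 = 1 := by
  ext i j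
  fin_cases i <;> fin_cases j <;> simp [Umat]

theorem Umat_neg (a : ℤ) : Umat (-a) = (Umat a)⁻¹ := by
  rw [eq_inv_iff_mul_eq_one, ← Umat_add, neg_add_cancel, Umat_zero]

theorem Umat_mul_mem (S : Subgroup SL(2, ℤ)) {n : ℤ} (hU : Umat n ∈ S) (l : ℤ) :
    Umat (l * n) ∈ S := by
  induction l using Int.induction_on with
  | zero => rw [zero_mul, Umat_zero]; exact S.one_mem
  | succ i ih =>
    rw [add_mul, one_mul, Umat_add]
    exact S.mul_mem ih hU
  | pred i ih =>
    rw [sub_mul, one_mul, sub_eq_add_neg, Umat_add, Umat_neg]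
    exact S.mul_mem ih (S.inv_mem hU)

theorem mem_of_lower_left_eq_zero (S : Subgroup SL(2, ℤ)) (hT : ModularGroup.T ∈ S)
    (hneg : (-1 : SL(2, ℤ)) ∈ S) (γ : SL(2, ℤ)) (hc : γ 1 0 = 0) : γ ∈ S := by
  have hdet := Matrix.det_fin_two γ.1
  rw [γ.2] at hdet
  have hc' : γ.1 1 0 = 0 := hc
  rw [hc', mul_zero, sub_zero] at hdet
  rcases Int.eq_one_or_neg_one_of_mul_eq_one' hdet.symm with ⟨ha, hd⟩ | ⟨ha, hd⟩
  · have : γ = ModularGroup.T ^ (γ.1 0 1) := by
      ext i j
      rw [ModularGroup.coe_T_zpow]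
      fin_cases i <;> fin_cases j <;> simp [ha, hd, hc']
    rw [this]
    exact S.zpow_mem hT _
  · have : γ = -1 * ModularGroup.T ^ (-(γ.1 0 1)) := by
      ext i j
      rw [neg_mul, one_mul, Matrix.SpecialLinearGroup.coe_neg, ModularGroup.coe_T_zpow]
      fin_cases i <;> fin_cases j <;> simp [ha, hd, hc']
    rw [this]
    exact S.mul_mem hneg (S.zpow_mem hT _)

/-- `Γ₀(n)` is generated by `-1`, `T`, `U_n = [[1,0],[n,1]]` for `n ≤ 4`.
PROOF.  Strong induction on `|c|` for `γ = [[a,b],[c,d]]`, `n ∣ c`.  `c = 0`: `γ = ± T^k`.  `c ≠ 0`: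
`γ T^k` has lower row `(c, d + k c)`: make `|d| ≤ |c| / 2`; `γ U_n^l` has lower row `(c + l n d, d)`: make
`|c'| ≤ n |d| / 2 ≤ n |c| / 4 ≤ |c|`.  Equality forces `n = 4`, `|d| = |c| / 2`, so `d ∣ c`, `|d| = 1`
(coprime), `|c| = 2`, contradicting `4 ∣ c`. -/
theorem Gamma0_le_of_generators (n : ℕ) (h1 : 1 ≤ n) (h4 : n ≤ 4) (S : Subgroup SL(2, ℤ))
    (hT : ModularGroup.T ∈ S) (hneg : (-1 : SL(2, ℤ)) ∈ S) (hU : Umat n ∈ S) : Gamma0 n ≤ S := by
  have key : ∀ (m : ℕ) (γ : SL(2, ℤ)), (γ 1 0).natAbs = m → (n : ℤ) ∣ γ 1 0 → γ ∈ S := by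
    intro m
    induction m using Nat.strong_induction_on with
    | _ m ih =>
      intro γ hm hn
      by_cases hc : γ 1 0 = 0
      · exact mem_of_lower_left_eq_zero S hT hneg γ hc
      · have hdet := Matrix.det_fin_two γ.1
        rw [γ.2] at hdet
        have hcop : IsCoprime (γ 1 0) (γ 1 1) := ⟨-(γ.1 0 1), γ.1 0 0, by
          show -(γ.1 0 1) * γ.1 1 0 + γ.1 0 0 * γ.1 1 1 = 1
          linarith⟩
        obtain ⟨k, l, hkl⟩ := exists_descent n h1 h4 (γ 1 0) (γ 1 1) hc hn hcop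
        set γ' : SL(2, ℤ) := γ * ModularGroup.T ^ k * Umat (l * n) with hγ'
        have hentry : γ' 1 0 = γ 1 0 + l * n * (γ 1 1 + k * γ 1 0) := by
          show (γ * ModularGroup.T ^ k * Umat (l * n)).1 1 0 = _
          rw [Matrix.SpecialLinearGroup.coe_mul, Matrix.SpecialLinearGroup.coe_mul,
            ModularGroup.coe_T_zpow]
          simp [Umat, Matrix.mul_apply, Fin.sum_univ_two]
          ring
        have hmem : γ' ∈ S := by
          refine ih (γ' 1 0).natAbs ?_ γ' rfl ?_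
          · rw [← hm, hentry]
            zify
            exact hkl
          · rw [hentry]
            exact dvd_add hn (Dvd.dvd.mul_right (Dvd.intro_left l rfl) _)
        have : γ = γ' * (Umat (l * n))⁻¹ * (ModularGroup.T ^ k)⁻¹ := by
          rw [hγ']
          group
        rw [this]
        exact S.mul_mem (S.mul_mem hmem (S.inv_mem (Umat_mul_mem S hU l)))
          (S.inv_mem (S.zpow_mem hT k))
  intro γ hγ
  rw [Gamma0_mem] at hγ
  exact key _ γ rfl ((ZMod.intCast_zmod_eq_zero_iff_dvd _ _).mp hγ)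

end Fermat.Agent.Lib.EtaUnit
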