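/-
Lib/EtaUnit (architect helper213).  TASK EU-21.
Proved by helper242.
-/
import Fermat.Agent.Lib.EtaUnit.Gen

set_option autoImplicit false

namespace Fermat.Agent.Lib.EtaUnit

open UpperHalfPlane CongruenceSubgroup
open scoped MatrixGroups

theorem denom_mul_SL (g h : SL(2, ℤ)) (τ : ℍ) :
    denom (g * h : SL(2, ℤ)) τ = denom g ((h • τ : ℍ) : ℂ) * denom h τ := by
  have h1 := denom_cocycle_σ (g : GL (Fin 2) ℝ) (h : GL (Fin 2) ℝ) τ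
  have h2 : σ (h : GL (Fin 2) ℝ) = .refl ℝ ℂ := by
    simp [σ]
  rw [h2] at h1
  simpa using h1

/-- An automorphy relation with character can be checked on the generators `-1`, `T`, `U_n`.
PROOF.  `S = {γ | ∃ h : γ ∈ Γ₀(n), ∀ τ, G (γ τ) = ψ ⟨γ, h⟩ * denom γ τ ^ k * G τ}` is a subgroup
(`UpperHalfPlane.denom_cocycle`, `mul_smul`; for inverses substitute `γ⁻¹ τ`), it contains `T`
(`denom T τ = 1`), `-1` (acts trivially, `denom (-1) τ = -1`) and `U_n`; apply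
`Gamma0_le_of_generators`. -/
theorem aut_of_generators (n : ℕ) (h1 : 1 ≤ n) (h4 : n ≤ 4) (G : ℍ → ℂ) (k : ℤ)
    (ψ : Gamma0 n →* ℂˣ)
    (hT : ∀ τ : ℍ, G (ModularGroup.T • τ) = (ψ ⟨ModularGroup.T, T_mem_Gamma0 n⟩ : ℂ) * G τ)
    (hneg : ((ψ ⟨-1, neg_one_mem_Gamma0 n⟩ : ℂˣ) : ℂ) = (-1) ^ k)
    (hU : ∀ τ : ℍ, G (Umat n • τ) =
      (ψ ⟨Umat n, Umat_mem_Gamma0 n⟩ : ℂ) * denom (Umat n) τ ^ k * G τ) :
    ∀ (γ : Gamma0 n) (τ : ℍ),
      G ((γ : SL(2, ℤ)) • τ) = (ψ γ : ℂ) * denom (γ : SL(2, ℤ)) τ ^ k * G τ := by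
  let S : Subgroup SL(2, ℤ) :=
    { carrier := {γ | ∃ h : γ ∈ Gamma0 n, ∀ τ : ℍ,
        G (γ • τ) = (ψ ⟨γ, h⟩ : ℂ) * denom γ τ ^ k * G τ}
      one_mem' := by
        refine ⟨one_mem _, fun τ => ?_⟩
        have : (⟨1, one_mem _⟩ : Gamma0 n) = 1 := rfl
        rw [this, map_one, one_smul]
        simp [denom]
      mul_mem' := by
        rintro a b ⟨ha, ha'⟩ ⟨hb, hb'⟩
        refine ⟨mul_mem ha hb, fun τ => ?_⟩
        have : (⟨a * b, mul_mem ha hb⟩ : Gamma0 n) = ⟨a, ha⟩ * ⟨b, hb⟩ := rfl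
        rw [this, map_mul, mul_smul, ha', hb', denom_mul_SL, mul_zpow]
        push_cast
        ring
      inv_mem' := by
        rintro a ⟨ha, ha'⟩
        refine ⟨inv_mem ha, fun τ => ?_⟩
        have h0 := ha' (a⁻¹ • τ)
        rw [smul_inv_smul] at h0
        have h2 := denom_mul_SL a a⁻¹ τ
        rw [mul_inv_cancel] at h2
        have h3 : denom ((1 : SL(2, ℤ)) : GL (Fin 2) ℝ) τ = 1 := by simp [denom]
        rw [h3] at h2
        have : (⟨a⁻¹, inv_mem ha⟩ : Gamma0 n) = (⟨a, ha⟩ : Gamma0 n)⁻¹ := rfl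
        rw [this, map_inv, h0]
        have h5 : ((ψ ⟨a, ha⟩ : ℂˣ) : ℂ) ≠ 0 := Units.ne_zero _
        have h6 : (denom (a⁻¹ : SL(2, ℤ)) τ) ^ k * denom a ((a⁻¹ • τ : ℍ) : ℂ) ^ k = 1 := by
          rw [← mul_zpow, mul_comm, ← h2, one_zpow]
        rw [Units.val_inv_eq_inv_val]
        calc G (a⁻¹ • τ) = ((ψ ⟨a, ha⟩ : ℂˣ) : ℂ)⁻¹ * ((ψ ⟨a, ha⟩ : ℂˣ) : ℂ) *
              ((denom (a⁻¹ : SL(2, ℤ)) τ) ^ k * denom a ((a⁻¹ • τ : ℍ) : ℂ) ^ k) * G (a⁻¹ • τ) := by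
                rw [h6, inv_mul_cancel₀ h5]; ring
          _ = _ := by ring }
  have hS : Gamma0 n ≤ S := by
    refine Gamma0_le_of_generators n h1 h4 S ?_ ?_ ?_
    · refine ⟨T_mem_Gamma0 n, fun τ => ?_⟩
      rw [hT]
      have : denom (ModularGroup.T : GL (Fin 2) ℝ) τ = 1 := by
        rw [ModularGroup.denom_apply]
        simp [ModularGroup.T]
      rw [this, one_zpow, mul_one]
    · refine ⟨neg_one_mem_Gamma0 n, fun τ => ?_⟩
      rw [hneg, ModularGroup.SL_neg_smul, one_smul]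
      have : denom ((-1 : SL(2, ℤ)) : GL (Fin 2) ℝ) τ = -1 := by simp [denom]
      rw [this, ← mul_zpow]
      simp
    · exact ⟨Umat_mem_Gamma0 n, hU⟩
  intro γ τ
  obtain ⟨h, h'⟩ := hS γ.2
  exact h' τ

end Fermat.Agent.Lib.EtaUnit
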